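import Mathlib.Data.ZMod.Basic
import Mathlib.NumberTheory.Divisors
import Mathlib.NumberTheory.PythagoreanTriples
import Mathlib.Tactic

/-!
# Rational points of `X₀(15)`, elementary descent

We show that `M² - N²` and `M² - 81 N²` are both squares only for `N = 0`, and deduce that the
only affine rational points of `v² = g⁴ + 14 g² + 625` have `g ∈ {0, 5, -5}`.
-/

namespace Fermat.Agent.LevelFifteen

/-- A divisor of `80` is `c e²` with `c` among `±1, ±5, ±2, ±10` and `1 ≤ e ≤ 4`. -/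
lemma exists_squareClass {k : ℤ} (hk80 : k ∣ 80) : ∃ c e : ℤ, 1 ≤ e ∧ e ≤ 4 ∧ k = c * e ^ 2 ∧
    (c = 1 ∨ c = -1 ∨ c = 5 ∨ c = -5 ∨ c = 2 ∨ c = -2 ∨ c = 10 ∨ c = -10) := by
  have h : k.natAbs ∈ Nat.divisors 80 :=
    Nat.mem_divisors.mpr ⟨Int.natCast_dvd_natCast.mp (Int.natAbs_dvd.mpr hk80), by norm_num⟩
  rw [show Nat.divisors 80 = {1, 2, 4, 5, 8, 10, 16, 20, 40, 80} by decide] at h
  simp only [Finset.mem_insert, Finset.mem_singleton] at h
  rcases Int.natAbs_eq k with hs | hs <;> rw [hs] <;>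
    rcases h with h | h | h | h | h | h | h | h | h | h <;> rw [h]
  · exact ⟨1, 1, by norm_num⟩
  · exact ⟨2, 1, by norm_num⟩
  · exact ⟨1, 2, by norm_num⟩
  · exact ⟨5, 1, by norm_num⟩
  · exact ⟨2, 2, by norm_num⟩
  · exact ⟨10, 1, by norm_num⟩
  · exact ⟨1, 4, by norm_num⟩
  · exact ⟨5, 2, by norm_num⟩
  · exact ⟨10, 2, by norm_num⟩
  · exact ⟨5, 4, by norm_num⟩
  · exact ⟨-1, 1, by norm_num⟩
  · exact ⟨-2, 1, by norm_num⟩
  · exact ⟨-1, 2, by norm_num⟩
  · exact ⟨-5, 1, by norm_num⟩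
  · exact ⟨-2, 2, by norm_num⟩
  · exact ⟨-10, 1, by norm_num⟩
  · exact ⟨-1, 4, by norm_num⟩
  · exact ⟨-5, 2, by norm_num⟩
  · exact ⟨-10, 2, by norm_num⟩
  · exact ⟨-5, 4, by norm_num⟩

/-- An odd square times a number `≡ 2` modulo `4` is no difference of two squares. -/
lemma mul_sq_ne_sq_sub_sq {d : ℤ} (hd : d % 4 = 2) (j y z : ℤ) :
    d * (2 * j + 1) ^ 2 ≠ y ^ 2 - z ^ 2 := fun h => by
  have := congrArg (fun z : ℤ => (z : ZMod 4)) h
  push_cast at this
  rw [← ZMod.intCast_mod d 4, Nat.cast_ofNat, hd, Int.cast_ofNat] at this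
  revert this
  generalize (j : ZMod 4) = x
  generalize (y : ZMod 4) = u
  generalize (z : ZMod 4) = v
  revert x u v
  decide

/-- For `c = ±2, ±10`, no coprime `β`, `γ` have `β² - γ²` and `β² - 81γ²` in `c ℤ²`. -/
lemma false_of_squareClass_even {c β γ D A : ℤ} (hβγ : IsCoprime β γ)
    (hc : c = 2 ∨ c = -2 ∨ c = 10 ∨ c = -10) (hD : β ^ 2 - γ ^ 2 = c * D ^ 2)
    (hA : β ^ 2 - 81 * γ ^ 2 = c * A ^ 2) : False := by
  -- `β`, `γ` are odd, `D` and `A` even
  have hpar : Odd β ∧ Odd γ := by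
    have hc2 : Even c := by rcases hc with rfl | rfl | rfl | rfl <;> decide
    have h : Even β ↔ Even γ := by
      have h : Even (β ^ 2 - γ ^ 2) := by rw [hD]; exact hc2.mul_right _
      simpa [Int.even_sub, Int.even_pow] using h
    suffices Odd β from ⟨this, Int.not_even_iff_odd.mp fun hg =>
      Int.not_even_iff_odd.mpr this (h.mpr hg)⟩
    refine Int.not_even_iff_odd.mp fun hb => ?_
    have : IsUnit (2 : ℤ) :=
      hβγ.isUnit_of_dvd' hb.two_dvd (h.mp hb).two_dvd
    simp [Int.isUnit_iff] at this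
  obtain ⟨⟨i, rfl⟩, ⟨j, rfl⟩⟩ := hpar
  rcases Int.even_or_odd D with ⟨D', rfl⟩ | ⟨D', rfl⟩ <;>
    rcases Int.even_or_odd A with ⟨A', rfl⟩ | ⟨A', rfl⟩
  · rcases hc with rfl | rfl | rfl | rfl
    · exact mul_sq_ne_sq_sub_sq (d := 10) (by norm_num) j D' A'
        (mul_left_cancel₀ (show (8 : ℤ) ≠ 0 by norm_num) (by linear_combination hD - hA))
    · exact mul_sq_ne_sq_sub_sq (d := -10) (by norm_num) j D' A'
        (mul_left_cancel₀ (show (8 : ℤ) ≠ 0 by norm_num) (by linear_combination -(hD - hA)))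
    · exact mul_sq_ne_sq_sub_sq (d := 2) (by norm_num) j D' A'
        (mul_left_cancel₀ (show (40 : ℤ) ≠ 0 by norm_num) (by linear_combination hD - hA))
    · exact mul_sq_ne_sq_sub_sq (d := -2) (by norm_num) j D' A'
        (mul_left_cancel₀ (show (40 : ℤ) ≠ 0 by norm_num) (by linear_combination -(hD - hA)))
  all_goals
    have h1 := congrArg (fun z : ℤ => (z : ZMod 4)) hD
    have h2 := congrArg (fun z : ℤ => (z : ZMod 4)) hA
    rcases hc with rfl | rfl | rfl | rfl <;>
    · push_cast at h1 h2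
      revert h1 h2
      generalize (i : ZMod 4) = x
      generalize (j : ZMod 4) = y
      generalize (D' : ZMod 4) = z
      generalize (A' : ZMod 4) = w
      revert x y z w
      decide

/-- The descent step after the two Pythagorean parametrisations. -/
lemma descent_step {r t p q : ℤ} (hrt : IsCoprime r t) (hr : r ≠ 0) (ht : t ≠ 0)
    (hprod : p * q = r * t) (heq : r ^ 2 + t ^ 2 = p ^ 2 + 81 * q ^ 2) :
    ∃ M N A B : ℤ, M.natAbs < (r ^ 2 + t ^ 2).natAbs ∧ N ≠ 0 ∧
      A ^ 2 + N ^ 2 = M ^ 2 ∧ B ^ 2 + (9 * N) ^ 2 = M ^ 2 := by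
  have hg : 0 < Int.gcd p r := by
    rw [Int.gcd_pos_iff]
    exact Or.inr hr
  obtain ⟨β, γ, hβγ, hp, hrγ⟩ := Int.exists_gcd_one hg
  generalize ha : (Int.gcd p r : ℤ) = α at hp hrγ
  have hα : α ≠ 0 := by
    rw [← ha]; exact_mod_cast hg.ne'
  subst hp hrγ
  replace hβγ : IsCoprime β γ := Int.isCoprime_iff_gcd_eq_one.mpr hβγ
  have hγ : γ ≠ 0 := left_ne_zero_of_mul hr
  have h1 : β * q = γ * t := mul_left_cancel₀ hα (by linear_combination hprod)
  obtain ⟨δ, rfl⟩ : β ∣ t := hβγ.dvd_of_dvd_mul_left ⟨q, h1.symm⟩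
  have hβ : β ≠ 0 := left_ne_zero_of_mul ht
  have hδ : δ ≠ 0 := right_ne_zero_of_mul ht
  obtain rfl : q = γ * δ := mul_left_cancel₀ hβ (by linear_combination h1)
  have hαδ : IsCoprime α δ := (hrt.of_mul_left_right).of_mul_right_right
  have h2 : α ^ 2 * (β ^ 2 - γ ^ 2) = δ ^ 2 * (β ^ 2 - 81 * γ ^ 2) := by
    linear_combination -heq
  obtain ⟨k, hk⟩ : δ ^ 2 ∣ β ^ 2 - γ ^ 2 :=
    (hαδ.symm.pow (m := 2) (n := 2)).dvd_of_dvd_mul_left ⟨_, h2⟩
  have hk2 : β ^ 2 - 81 * γ ^ 2 = k * α ^ 2 :=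
    mul_left_cancel₀ (pow_ne_zero 2 hδ) (by linear_combination -h2 + α ^ 2 * hk)
  have hk80 : k ∣ 80 := by
    obtain ⟨u, v, huv⟩ := hβγ.pow (m := 2) (n := 2)
    refine ⟨u * (81 * δ ^ 2 - α ^ 2) + v * (δ ^ 2 - α ^ 2), ?_⟩
    linear_combination -80 * huv + (81 * u + v) * hk - (u + v) * hk2
  -- size bounds
  have hα2 : 1 ≤ α ^ 2 := by
    have := sq_nonneg α; have := pow_ne_zero 2 hα; omega
  have hβ2 : 1 ≤ β ^ 2 := by
    have := sq_nonneg β; have := pow_ne_zero 2 hβ; omega
  have hγ2 : 1 ≤ γ ^ 2 := by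
    have := sq_nonneg γ; have := pow_ne_zero 2 hγ; omega
  have hδ2 : 1 ≤ δ ^ 2 := by
    have := sq_nonneg δ; have := pow_ne_zero 2 hδ; omega
  have hS : (β * α) ^ 2 + 81 * (γ * δ) ^ 2 = (γ * α) ^ 2 + (β * δ) ^ 2 := heq.symm
  have hS1 : β ^ 2 ≤ (β * α) ^ 2 := by rw [mul_pow]; nlinarith
  have hS2 : α ^ 2 ≤ (β * α) ^ 2 := by rw [mul_pow]; nlinarith
  have hS3 : γ ^ 2 ≤ (γ * δ) ^ 2 := by rw [mul_pow]; nlinarith
  have hS4 : δ ^ 2 ≤ (γ * δ) ^ 2 := by rw [mul_pow]; nlinarith
  have bound : ∀ {x : ℤ}, x < (γ * α) ^ 2 + (β * δ) ^ 2 → -x < (γ * α) ^ 2 + (β * δ) ^ 2 →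
      x.natAbs < ((γ * α) ^ 2 + (β * δ) ^ 2).natAbs := fun {x} _ _ => by omega
  have sq_ge : ∀ x : ℤ, x ≤ x ^ 2 ∧ -x ≤ x ^ 2 := fun x =>
    ⟨Int.le_self_sq x, by simpa using Int.le_self_sq (-x)⟩
  have hbβ := sq_ge β
  have hbγ := sq_ge γ
  have hbδ := sq_ge δ
  have hbα : 4 * α ≤ α ^ 2 + 4 ∧ -(4 * α) ≤ α ^ 2 + 4 :=
    ⟨by linarith [sq_nonneg (α - 2)], by linarith [sq_nonneg (α + 2)]⟩
  -- square classes of `k`
  obtain ⟨c, e, he, he', rfl, hc⟩ := exists_squareClass hk80
  have hD : β ^ 2 - γ ^ 2 = c * (e * δ) ^ 2 := by linear_combination hk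
  have hA : β ^ 2 - 81 * γ ^ 2 = c * (e * α) ^ 2 := by linear_combination hk2
  have he0 : e ≠ 0 := by omega
  have heα : e * α ≤ α ^ 2 + 4 ∧ -(e * α) ≤ α ^ 2 + 4 := by
    rcases le_total 0 α with h | h
    · have h1 := mul_le_mul_of_nonneg_right he' h
      have h2 := mul_nonneg (show (0 : ℤ) ≤ e by omega) h
      constructor <;> omega
    · have h1 := mul_le_mul_of_nonpos_right he' h
      have h2 := mul_nonpos_of_nonneg_of_nonpos (show (0 : ℤ) ≤ e by omega) h
      constructor <;> omega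
  have heδ : e * δ ≤ 4 * δ ^ 2 ∧ -(e * δ) ≤ 4 * δ ^ 2 := by
    rcases le_total 0 δ with h | h
    · have h1 := mul_le_mul_of_nonneg_right he' h
      have h2 := mul_nonneg (show (0 : ℤ) ≤ e by omega) h
      constructor <;> omega
    · have h1 := mul_le_mul_of_nonpos_right he' h
      have h2 := mul_nonpos_of_nonneg_of_nonpos (show (0 : ℤ) ≤ e by omega) h
      constructor <;> omega
  rcases hc with rfl | rfl | rfl | rfl | hc
  · refine ⟨β, γ, e * δ, e * α, bound ?_ ?_, hγ, ?_, ?_⟩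
    · omega
    · omega
    · linear_combination -hD
    · linear_combination -hA
  · refine ⟨9 * γ, β, e * α, 9 * (e * δ), bound ?_ ?_, hβ, ?_, ?_⟩
    · omega
    · omega
    · linear_combination hA
    · linear_combination 81 * hD
  · refine ⟨9 * (e * δ), e * α, 4 * β, 36 * γ, bound ?_ ?_, mul_ne_zero he0 hα, ?_, ?_⟩
    · omega
    · omega
    · refine mul_left_cancel₀ (show (5 : ℤ) ≠ 0 by norm_num) ?_
      linear_combination 81 * hD - hA
    · refine mul_left_cancel₀ (show (5 : ℤ) ≠ 0 by norm_num) ?_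
      linear_combination 81 * (hD - hA)
  · refine ⟨e * α, e * δ, 4 * γ, 4 * β, bound ?_ ?_, mul_ne_zero he0 hδ, ?_, ?_⟩
    · omega
    · omega
    · refine mul_left_cancel₀ (show (5 : ℤ) ≠ 0 by norm_num) ?_
      linear_combination hD - hA
    · refine mul_left_cancel₀ (show (5 : ℤ) ≠ 0 by norm_num) ?_
      linear_combination 81 * hD - hA
  · exact (false_of_squareClass_even hβγ hc hD hA).elim

/-- Primitive parametrisation, forgetting the order and the sign. -/
lemma triple_param {A N M : ℤ} (h : A ^ 2 + N ^ 2 = M ^ 2) (hco : IsCoprime A N) :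
    ∃ r t : ℤ, (A = r ^ 2 - t ^ 2 ∧ N = 2 * r * t ∨ A = 2 * r * t ∧ N = r ^ 2 - t ^ 2) ∧
      M.natAbs = (r ^ 2 + t ^ 2).natAbs ∧ IsCoprime r t ∧
      (r % 2 = 0 ∧ t % 2 = 1 ∨ r % 2 = 1 ∧ t % 2 = 0) := by
  have ht : PythagoreanTriple A N M := by
    unfold PythagoreanTriple; linear_combination h
  obtain ⟨r, t, hAN, hM, hco', hpar⟩ :=
    PythagoreanTriple.coprime_classification.mp ⟨ht, Int.isCoprime_iff_gcd_eq_one.mp hco⟩
  refine ⟨r, t, hAN, ?_, Int.isCoprime_iff_gcd_eq_one.mpr hco', hpar⟩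
  rcases hM with rfl | rfl <;> simp only [Int.natAbs_neg]

/-- `M² - N²` and `M² - 81 N²` are both squares only when `N = 0`. -/
theorem descent {M N A B : ℤ} (h1 : A ^ 2 + N ^ 2 = M ^ 2) (h2 : B ^ 2 + (9 * N) ^ 2 = M ^ 2) :
    N = 0 := by
  induction hn : M.natAbs using Nat.strong_induction_on generalizing M N A B with
  | _ n ih =>
    by_contra hN
    have hM : M ≠ 0 := by
      rintro rfl
      nlinarith [sq_nonneg A, sq_abs N, sq_pos_iff.mpr hN]
    by_cases hg : Int.gcd M N = 1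
    · have hMN : IsCoprime M N := Int.isCoprime_iff_gcd_eq_one.mpr hg
      have hM3 : IsCoprime M 3 := by
        refine (Int.prime_three.coprime_iff_not_dvd.mpr ?_).symm
        rintro ⟨m, rfl⟩
        have hz := congrArg (fun z : ℤ => (z : ZMod 3)) h1
        push_cast at hz
        have hN3 : (N : ZMod 3) = 0 := by
          revert hz
          generalize (A : ZMod 3) = x
          generalize (N : ZMod 3) = y
          generalize (m : ZMod 3) = z
          revert x y z
          decide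
        have h3N : (3 : ℤ) ∣ N := by exact_mod_cast (ZMod.intCast_zmod_eq_zero_iff_dvd N 3).mp hN3
        have : IsUnit (3 : ℤ) := hMN.isUnit_of_dvd' (dvd_mul_right 3 m) h3N
        simp [Int.isUnit_iff] at this
      have hAN : IsCoprime A N := by
        have h := (hMN.pow (m := 2) (n := 1))
        rw [← h1, pow_one, pow_two N] at h
        exact (IsCoprime.pow_left_iff (by norm_num : 0 < 2)).mp h.of_add_mul_right_left
      have hBN : IsCoprime B (9 * N) := by
        have h9 : IsCoprime M (9 * N) := by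
          rw [show (9 : ℤ) = 3 * 3 by norm_num]
          exact (hM3.mul_right hM3).mul_right hMN
        have h := (h9.pow (m := 2) (n := 1))
        rw [← h2, pow_one, pow_two (9 * N)] at h
        exact (IsCoprime.pow_left_iff (by norm_num : 0 < 2)).mp h.of_add_mul_right_left
      obtain ⟨r, t, hrt, hMr, hco, hpar⟩ := triple_param h1 hAN
      obtain ⟨p, q, hpq, hMp, hco', hpar'⟩ := triple_param h2 hBN
      have hsum : r ^ 2 + t ^ 2 = p ^ 2 + q ^ 2 := by
        have := sq_nonneg r; have := sq_nonneg t; have := sq_nonneg p; have := sq_nonneg q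
        omega
      rcases hrt with ⟨-, hNe⟩ | ⟨-, hNe⟩ <;> rcases hpq with ⟨-, hNe'⟩ | ⟨-, hNe'⟩
      · -- `N` even
        have hprod : p * q = 9 * (r * t) :=
          mul_left_cancel₀ (show (2 : ℤ) ≠ 0 by norm_num) (by linear_combination -hNe' + 9 * hNe)
        have hr : r ≠ 0 := by rintro rfl; exact hN (by simpa using hNe)
        have ht : t ≠ 0 := by rintro rfl; exact hN (by simpa using hNe)
        have key : ∀ p q : ℤ, p * q = 9 * (r * t) → r ^ 2 + t ^ 2 = p ^ 2 + q ^ 2 →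
            (9 : ℤ) ∣ q → False := by
          rintro p _ hprod hsum ⟨q, rfl⟩
          obtain ⟨M', N', A', B', hlt, hN', hA', hB'⟩ := descent_step hco hr ht
            (mul_left_cancel₀ (show (9 : ℤ) ≠ 0 by norm_num) (by linear_combination hprod) :
              p * q = r * t) (by linear_combination hsum)
          exact hN' (ih M'.natAbs (by omega) hA' hB' rfl)
        have h3 : (3 : ℤ) ∣ p * q := ⟨3 * (r * t), by linear_combination hprod⟩
        have h9 : IsCoprime ((3 : ℤ) * 3) p ∨ IsCoprime ((3 : ℤ) * 3) q := by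
          by_cases hp3 : (3 : ℤ) ∣ p
          · right
            have : ¬ (3 : ℤ) ∣ q := fun hq3 => by
              have : IsUnit (3 : ℤ) := hco'.isUnit_of_dvd' hp3 hq3
              simp [Int.isUnit_iff] at this
            have := Int.prime_three.coprime_iff_not_dvd.mpr this
            exact this.mul_left this
          · left
            have := Int.prime_three.coprime_iff_not_dvd.mpr hp3
            exact this.mul_left this
        rcases h9 with h9 | h9
        · exact key p q hprod hsum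
            (h9.dvd_of_dvd_mul_left ⟨r * t, by linear_combination hprod⟩)
        · exact key q p (by linear_combination hprod) (by linear_combination hsum)
            (h9.dvd_of_dvd_mul_left ⟨r * t, by linear_combination hprod⟩)
      · -- parity
        have e1 : (p ^ 2 - q ^ 2) % 2 = 0 := by rw [← hNe', hNe]; simp [Int.mul_emod]
        have sq2 : ∀ x : ℤ, x ^ 2 % 2 = x % 2 := fun x => by
          rcases Int.emod_two_eq_zero_or_one x with h | h <;> simp [pow_two, Int.mul_emod, h]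
        have := sq2 p; have := sq2 q
        omega
      · have e1 : (r ^ 2 - t ^ 2) % 2 = 0 := by
          have : N % 2 = 0 := by
            have : 9 * N = 2 * (p * q) := by rw [hNe']; ring
            omega
          rwa [← hNe]
        have sq2 : ∀ x : ℤ, x ^ 2 % 2 = x % 2 := fun x => by
          rcases Int.emod_two_eq_zero_or_one x with h | h <;> simp [pow_two, Int.mul_emod, h]
        have := sq2 r; have := sq2 t
        omega
      · -- `N` odd: impossible modulo 8
        have key : ∀ r t q : ℤ, q ^ 2 = 5 * t ^ 2 - 4 * r ^ 2 → r % 2 = 0 → t % 2 = 1 → False := by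
          intro r t q hq hr ht
          obtain ⟨a, rfl⟩ : ∃ a, r = 2 * a := ⟨r / 2, by omega⟩
          obtain ⟨b, rfl⟩ : ∃ b, t = 2 * b + 1 := ⟨t / 2, by omega⟩
          have hz := congrArg (fun z : ℤ => (z : ZMod 8)) hq
          push_cast at hz
          revert hz
          generalize (q : ZMod 8) = x
          generalize (a : ZMod 8) = y
          generalize (b : ZMod 8) = z
          revert x y z
          decide
        rcases hpar with ⟨hr, ht⟩ | ⟨hr, ht⟩
        · exact key r t q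
            (mul_left_cancel₀ (show (2 : ℤ) ≠ 0 by norm_num)
              (by linear_combination -hsum + hNe' - 9 * hNe)) hr ht
        · exact key t r p
            (mul_left_cancel₀ (show (2 : ℤ) ≠ 0 by norm_num)
              (by linear_combination -hsum - hNe' + 9 * hNe)) ht hr
    · have hg0 : 0 < Int.gcd M N := Int.gcd_pos_iff.mpr (Or.inl hM)
      obtain ⟨m, k, -, hm, hk⟩ := Int.exists_gcd_one hg0
      have hdA : (Int.gcd M N : ℤ) ^ 2 ∣ A ^ 2 :=
        ⟨m ^ 2 - k ^ 2, by
          linear_combination h1 + (M + m * Int.gcd M N) * hm - (N + k * Int.gcd M N) * hk⟩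
      have hdB : (Int.gcd M N : ℤ) ^ 2 ∣ B ^ 2 :=
        ⟨m ^ 2 - 81 * k ^ 2, by
          linear_combination h2 + (M + m * Int.gcd M N) * hm - 81 * (N + k * Int.gcd M N) * hk⟩
      obtain ⟨a, ha⟩ := (Int.pow_dvd_pow_iff two_ne_zero).mp hdA
      obtain ⟨b, hb⟩ := (Int.pow_dvd_pow_iff two_ne_zero).mp hdB
      have hgz : (Int.gcd M N : ℤ) ≠ 0 := by exact_mod_cast hg0.ne'
      have hk0 : k = 0 := by
        refine ih m.natAbs ?_ (A := a) (B := b) ?_ ?_ rfl
        · have hmul : M.natAbs = m.natAbs * Int.gcd M N := by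
            conv_lhs => rw [hm]
            simp [Int.natAbs_mul]
          have hm0 : 0 < m.natAbs := by
            refine Int.natAbs_pos.mpr ?_
            rintro rfl
            simp at hm; exact hM hm
          rw [← hn, hmul]
          have : 2 ≤ Int.gcd M N := by omega
          nlinarith
        · refine mul_left_cancel₀ (pow_ne_zero 2 hgz) ?_
          generalize (Int.gcd M N : ℤ) = g at *
          subst ha hb hm hk
          linear_combination h1
        · refine mul_left_cancel₀ (pow_ne_zero 2 hgz) ?_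
          generalize (Int.gcd M N : ℤ) = g at *
          subst ha hb hm hk
          linear_combination h2
      exact hN (by rw [hk, hk0, zero_mul])

/-- No rational `x` with `x² - 1` and `x² - 81` both squares. -/
theorem descent_rat {x a b : ℚ} (h1 : a ^ 2 + 1 = x ^ 2) (h2 : b ^ 2 + 81 = x ^ 2) : False := by
  set D : ℚ := (x.den : ℚ) * a.den * b.den with hD
  have hA : D * a = ((a.num * x.den * b.den : ℤ) : ℚ) := by
    rw [hD]; push_cast; rw [← Rat.mul_den_eq_num a]; ring
  have hB : D * b = ((b.num * x.den * a.den : ℤ) : ℚ) := by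
    rw [hD]; push_cast; rw [← Rat.mul_den_eq_num b]; ring
  have hX : D * x = ((x.num * a.den * b.den : ℤ) : ℚ) := by
    rw [hD]; push_cast; rw [← Rat.mul_den_eq_num x]; ring
  have hD' : D = ((x.den * a.den * b.den : ℤ) : ℚ) := by rw [hD]; push_cast; ring
  have e1 : (D * a) ^ 2 + D ^ 2 = (D * x) ^ 2 := by linear_combination D ^ 2 * h1
  have e2 : (D * b) ^ 2 + (9 * D) ^ 2 = (D * x) ^ 2 := by linear_combination D ^ 2 * h2
  rw [hA, hX, hD'] at e1
  rw [hB, hX, hD'] at e2
  have := descent (M := x.num * a.den * b.den) (N := x.den * a.den * b.den)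
    (by exact_mod_cast e1) (by exact_mod_cast e2)
  simp [mul_eq_zero] at this

/-- The affine rational points on `v² = g⁴ + 14 g² + 625`. -/
theorem quartic_points {g v : ℚ} (h : v ^ 2 = g ^ 4 + 14 * g ^ 2 + 625) :
    g = 0 ∨ g = 5 ∨ g = -5 := by
  by_contra hne
  simp only [not_or] at hne
  obtain ⟨h0, h5, h5'⟩ := hne
  have hd : g ^ 2 - 25 ≠ 0 := by
    intro hz
    rcases mul_eq_zero.mp (show (g - 5) * (g + 5) = 0 by linear_combination hz) with h' | h'
    · exact h5 (by linarith)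
    · exact h5' (by linarith)
  refine descent_rat (x := v * (g ^ 2 + 25) / (2 * g * (g ^ 2 - 25)))
    (a := ((g ^ 2 - 25) ^ 2 + 80 * g ^ 2) / (2 * g * (g ^ 2 - 25)))
    (b := ((g ^ 2 - 25) ^ 2 - 80 * g ^ 2) / (2 * g * (g ^ 2 - 25))) ?_ ?_
  · field_simp
    linear_combination -(g ^ 2 + 25) ^ 2 * h
  · field_simp
    linear_combination -(g ^ 2 + 25) ^ 2 * h

end Fermat.Agent.LevelFifteen
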