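import Fermat.Agent.LevelFifteen.Torsion

/-!
# Invariants of a pair of a cyclic `3`-subgroup and a cyclic `5`-subgroup

`x₃` is the abscissa of a point of order three, `x`, `x'` those of `P`, `2 P` for `P` of order five.
-/

universe u

open Polynomial WeierstrassCurve WeierstrassCurve.Affine

namespace Fermat.Agent.LevelFifteen

variable {K : Type u} [Field K] (E : WeierstrassCurve.Affine K)

/-- The Tate parameter of `P`. -/
noncomputable def bPar (x x' : K) : K := (x' - x) ^ 3 / E.Ψ₂Sq.eval x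

/-- The position of the point of order three relative to `P` and `2 P`. -/
noncomputable def zPar (x₃ x x' : K) : K := (x₃ - x) / (x' - x)

/-- The parameter `c = b z / (z - 1)`; the coordinate `e` is `c - 1 / c`. -/
noncomputable def cPar (x₃ x x' : K) : K := bPar E x x' * zPar x₃ x x' / (zPar x₃ x x' - 1)

/-- First coordinate on `X₀(15)`. -/
noncomputable def ePar (x₃ x x' : K) : K := cPar E x₃ x x' - (cPar E x₃ x x')⁻¹

/-- Second coordinate on `X₀(15)`. -/
noncomputable def hPar (x₃ x x' : K) : K := (2 * zPar x₃ x x' - 1) ^ 2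

section algebra

variable {F : Type u} [Field F] [CharZero F]

/-- A root of the cubic in `z` gives the coordinates `(e, h)` of a point of `X₀(15)`. -/
lemma X015_relations {b z e h : F} (hb : b ≠ 0)
    (hG : b ^ 2 * z ^ 3 + 3 * b * z ^ 2 * (z - 1) ^ 2 + (z - 1) ^ 3 = 0)
    (he : e = b * z / (z - 1) - (b * z / (z - 1))⁻¹) (hh : h = (2 * z - 1) ^ 2) :
    z ≠ 0 ∧ z ≠ 1 ∧ h ≠ 1 ∧ (3 - 2 * e - 3 * h) ^ 2 = 4 * h * (e ^ 2 + 4) ∧
      (h - 1) * (b - b⁻¹) = e * (h + 1) - (3 - 2 * e - 3 * h) := by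
  have hz : z ≠ 0 := by
    rintro rfl
    norm_num at hG
  have hz1 : z ≠ 1 := by
    rintro rfl
    norm_num at hG
    exact hb hG
  have hz1' : z - 1 ≠ 0 := sub_ne_zero.mpr hz1
  refine ⟨hz, hz1, ?_, ?_, ?_⟩
  · intro h1
    rw [hh] at h1
    have : z * (z - 1) = 0 := by linear_combination h1 / 4
    exact (mul_ne_zero hz hz1') this
  all_goals
    set c : F := b * z / (z - 1) with hc
    have hc0 : c ≠ 0 := div_ne_zero (mul_ne_zero hb hz) hz1'
    have hbc : b = c * (z - 1) / z := by rw [hc]; field_simp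
    have hQ : 3 * c * z ^ 2 + (c ^ 2 - 3 * c + 1) * z - 1 = 0 := by
      rw [hbc] at hG
      field_simp at hG
      refine (mul_eq_zero.mp (?_ : (z - 1) ^ 2 *
        (3 * c * z ^ 2 + (c ^ 2 - 3 * c + 1) * z - 1) = 0)).resolve_left (pow_ne_zero 2 hz1')
      linear_combination hG
    have hg : 3 - 2 * e - 3 * h = 2 * (2 * z - 1) * (c + c⁻¹) := by
      rw [he, hh]; field_simp
      linear_combination -4 * hQ
    rw [hg, he, hh]
  · field_simp
    ring
  · rw [hbc]
    field_simp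
    ring

omit [CharZero F] in
/-- A point `(e, h)` of `X₀(15)` gives a point of the quartic `v² = g⁴ + 14 g² + 625`. -/
lemma X015_point {e h : F} (hrel : (3 - 2 * e - 3 * h) ^ 2 = 4 * h * (e ^ 2 + 4)) :
    (2 * (9 * h - (2 * e ^ 2 - 6 * e + 17))) ^ 2 =
      (2 * e - 3) ^ 4 + 14 * (2 * e - 3) ^ 2 + 625 := by
  linear_combination 36 * hrel

end algebra

variable {E} [DecidableEq K] {x y : K}

/-- For a point of order five: its double, and the invariant `b` of the two. -/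
lemma five_relations (hn : E.Nonsingular x y) (h5 : (5 : ℕ) • Point.some x y hn = 0) :
    ∃ (y' : K) (hn' : E.Nonsingular (x - sa₂ E x y) y'),
      (2 : ℕ) • Point.some x y hn = Point.some _ _ hn' ∧
      sa₂ E x y ≠ 0 ∧ bPar E x (x - sa₂ E x y) ≠ 0 ∧
      bPar E (x - sa₂ E x y) x = -(bPar E x (x - sa₂ E x y))⁻¹ := by
  obtain ⟨h3, hR⟩ := five_of_nsmul hn h5
  obtain ⟨h2, hd⟩ := double_ne_zero h3 hR
  obtain ⟨y', hn', e2, -, -⟩ := two_nsmul_some h3 hn
  refine ⟨y', hn', e2, h2, ?_, ?_⟩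
  · rw [bPar, eval_Ψ₂Sq hn.1, sub_sub_cancel_left]
    exact div_ne_zero (pow_ne_zero 3 (neg_ne_zero.mpr h2)) (pow_ne_zero 2 h3)
  · rw [bPar, bPar, eval_Ψ₂Sq hn.1, eval_Ψ₂Sq_double hn.1 h3, sub_sub_cancel_left, sub_sub_cancel]
    have hR' : sa₂ E x y ^ 3 = sa₃ E x y * (sa₁ E x y * sa₂ E x y - sa₃ E x y) := by
      unfold FiveRel at hR; linear_combination hR
    generalize sa₁ E x y * sa₂ E x y - sa₃ E x y = d at hd hR'
    field_simp
    linear_combination (sa₂ E x y ^ 3 + sa₃ E x y * d) * hR'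

/-- The cubic relation between the invariants of points of order five and three. -/
lemma level15_relation (hn : E.Nonsingular x y) (h5 : (5 : ℕ) • Point.some x y hn = 0) {x₃ : K}
    (h3 : E.Ψ₃.eval x₃ = 0) :
    let b := bPar E x (x - sa₂ E x y)
    let z := zPar x₃ x (x - sa₂ E x y)
    b ^ 2 * z ^ 3 + 3 * b * z ^ 2 * (z - 1) ^ 2 + (z - 1) ^ 3 = 0 := by
  intro b z
  obtain ⟨hA3, hR⟩ := five_of_nsmul hn h5
  obtain ⟨hA2, -⟩ := double_ne_zero hA3 hR
  have hΨ := eval_Ψ₃_add hn.1 hA3 (x₃ - x)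
  rw [add_sub_cancel, h3] at hΨ
  simp only [b, z, bPar, zPar, eval_Ψ₂Sq hn.1, sub_sub_cancel_left]
  unfold FiveRel at hR
  have hA1 : sa₁ E x y = (sa₂ E x y ^ 3 + sa₃ E x y ^ 2) / (sa₂ E x y * sa₃ E x y) := by
    field_simp
    linear_combination -hR
  rw [hA1] at hΨ
  field_simp at hΨ ⊢
  linear_combination hΨ

/-- The invariant `j = c₄³/Δ` in terms of the invariant `b` of a point of order five. -/
lemma level5_j (hn : E.Nonsingular x y) (h5 : (5 : ℕ) • Point.some x y hn = 0) :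
    let b := bPar E x (x - sa₂ E x y)
    let s := b - b⁻¹ - 11
    E.c₄ ^ 3 * s = E.Δ * (s ^ 2 + 10 * s + 5) ^ 3 := by
  intro b s
  obtain ⟨hA3, hR⟩ := five_of_nsmul hn h5
  obtain ⟨hA2, -⟩ := double_ne_zero hA3 hR
  obtain ⟨hb : b ≠ 0, -⟩ := (five_relations hn h5).choose_spec.choose_spec.2.2
  have hb' : b = -sa₂ E x y ^ 3 / sa₃ E x y ^ 2 := by
    simp only [b, bPar, eval_Ψ₂Sq hn.1, sub_sub_cancel_left]
    ring
  obtain ⟨u, hu⟩ : ∃ u, u = sa₃ E x y / sa₂ E x y := ⟨_, rfl⟩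
  unfold FiveRel at hR
  have e2 : sa₂ E x y = -b * u ^ 2 := by rw [hb', hu]; field_simp
  have e3 : sa₃ E x y = -b * u ^ 3 := by rw [hb', hu]; field_simp
  have e1 : sa₁ E x y = u * (1 - b) := by
    rw [hb', hu]; field_simp
    linear_combination -hR
  rw [c₄_eq hA3, Δ_eq hn.1 hA3, e1, e2, e3]
  simp only [s]
  field_simp
  ring

end Fermat.Agent.LevelFifteen
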