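import Mathlib.FieldTheory.Galois.Infinite
import Fermat.Prelude.Def_FLTPrelim_ModularRep
import Fermat.Agent.Gal.Basic
import Fermat.Agent.LevelFifteen.Descent
import Fermat.Agent.LevelFifteen.Level15

/-!
# A semistable curve cannot have both `E[3]` and `E[5]` reducible
-/

open Polynomial WeierstrassCurve WeierstrassCurve.Affine

namespace Fermat.Agent.LevelFifteen

local notation "Qb" => AlgebraicClosure ℚ

variable (W : WeierstrassCurve ℤ)

/-- The curve over `ℚ̄`. -/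
noncomputable abbrev EK : WeierstrassCurve.Affine Qb :=
  (W.map (Int.castRingHom ℚ))⁄Qb

lemma EK_Δ : (EK W).Δ = (W.Δ : Qb) := by
  simp [EK, WeierstrassCurve.baseChange]

lemma EK_c₄ : (EK W).c₄ = (W.c₄ : Qb) := by
  simp [EK, WeierstrassCurve.baseChange]

lemma EK_Δ_ne (hΔ : W.Δ ≠ 0) : (EK W).Δ ≠ 0 := by
  rw [EK_Δ]; exact_mod_cast hΔ

lemma aut_Ψ₂Sq (σ : Qb ≃ₐ[ℚ] Qb) (x : Qb) :
    σ ((EK W).Ψ₂Sq.eval x) = (EK W).Ψ₂Sq.eval (σ x) := by
  simp [EK, WeierstrassCurve.baseChange, Ψ₂Sq, map_ofNat]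

lemma aut_hPar (σ : Qb ≃ₐ[ℚ] Qb) (x₃ x x' : Qb) :
    σ (hPar x₃ x x') = hPar (σ x₃) (σ x) (σ x') := by
  simp [hPar, zPar, map_ofNat]

lemma aut_ePar (σ : Qb ≃ₐ[ℚ] Qb) (x₃ x x' : Qb) :
    σ (ePar (EK W) x₃ x x') = ePar (EK W) (σ x₃) (σ x) (σ x') := by
  simp [ePar, cPar, bPar, zPar, aut_Ψ₂Sq]

/-- A Galois-stable proper nonzero submodule of `E[n]` is a line spanned by a Galois-stable
point. -/
lemma exists_stable_point {n d : ℕ} [Fact n.Prime] {f : Qb[X]} (hf0 : f.natDegree ≠ 0)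
    (hf : f.natDegree ≤ d) (hd : 2 * d + 1 < n ^ 3) (hΔ : (EK W).Δ ≠ 0)
    (hiff : ∀ (x y : Qb) (h : (EK W).Nonsingular x y),
      n • Point.some x y h = 0 ↔ f.eval x = 0)
    (hirr : ¬ W.ModRepIsIrreducible n) :
    ∃ (x y : Qb) (h : (EK W).Nonsingular x y), n • Point.some x y h = 0 ∧
      ∀ σ : Qb ≃ₐ[ℚ] Qb, ∃ k : ℕ, k < n ∧ ∃ h' : (EK W).Nonsingular (σ x) (σ y),
        Point.some (σ x) (σ y) h' = k • Point.some x y h := by
  have hfne : f ≠ 0 := fun h => hf0 (by rw [h, natDegree_zero])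
  have hmem : ∀ P : (EK W).Point,
      P ∈ Submodule.torsionBy ℤ (EK W).Point (n : ℤ) ↔ n • P = 0 := fun P => by
    rw [Submodule.mem_torsionBy_iff, natCast_zsmul]
  obtain ⟨hfin, hcard⟩ := finite_and_card_le (EK W)
    (Submodule.torsionBy ℤ (EK W).Point (n : ℤ) : Set (EK W).Point) hfne
    (fun x y h hP => (hiff x y h).mp ((hmem _).mp hP))
  have : Finite (Submodule.torsionBy ℤ (EK W).Point (n : ℤ)) := hfin
  obtain ⟨x₀, y₀, h₀, hx₀⟩ := exists_point (EK W) hΔ hf0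
  have hnt : Nontrivial (Submodule.torsionBy ℤ (EK W).Point (n : ℤ)) :=
    ⟨⟨Point.some x₀ y₀ h₀, (hmem _).mpr ((hiff _ _ h₀).mpr hx₀)⟩, 0,
      fun h => Point.some_ne_zero h₀ (congrArg Subtype.val h)⟩
  obtain ⟨N, hN, hb, ht⟩ : ∃ N : Submodule (ZMod n)
      (Submodule.torsionBy ℤ (EK W).Point (n : ℤ)),
      Point.IsGaloisStable ℚ N ∧ N ≠ ⊥ ∧ N ≠ ⊤ := by
    by_contra hne
    refine hirr ⟨hnt, fun N hN => ?_⟩
    by_contra h
    exact hne ⟨N, hN, fun hb => h (Or.inl hb), fun ht => h (Or.inr ht)⟩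
  have : Module.Finite (ZMod n) (Submodule.torsionBy ℤ (EK W).Point (n : ℤ)) :=
    Module.Finite.of_finite
  have hrank : Module.finrank (ZMod n) (Submodule.torsionBy ℤ (EK W).Point (n : ℤ)) ≤ 2 := by
    have h1 := Module.natCard_eq_pow_finrank (K := ZMod n)
      (V := Submodule.torsionBy ℤ (EK W).Point (n : ℤ))
    rw [Nat.card_zmod] at h1
    have h2 : n ^ Module.finrank (ZMod n) (Submodule.torsionBy ℤ (EK W).Point (n : ℤ)) < n ^ 3 := by
      rw [← h1]
      exact lt_of_le_of_lt (hcard.trans (by omega)) hd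
    exact Nat.lt_succ_iff.mp ((Nat.pow_lt_pow_iff_right (Fact.out : n.Prime).one_lt).mp h2)
  have hN1 : Module.finrank (ZMod n) N = 1 := by
    have h1 := Submodule.finrank_lt ht
    have h2 : Module.finrank (ZMod n) N ≠ 0 := fun h => hb (Submodule.finrank_eq_zero.mp h)
    omega
  obtain ⟨P, hP, hP0⟩ := (Submodule.ne_bot_iff N).mp hb
  obtain ⟨P, hPn⟩ := P
  match P, hPn with
  | .zero, hPn => exact absurd (Subtype.ext rfl) hP0
  | .some x y h, hPn =>
    refine ⟨x, y, h, (hmem _).mp hPn, fun σ => ?_⟩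
    obtain ⟨k, hk⟩ := exists_smul_eq_of_finrank_eq_one hN1 (x := (⟨_, hP⟩ : N))
      (fun h0 => hP0 (congrArg Subtype.val h0)) ⟨σ • _, hN σ _ hP⟩
    refine ⟨k.val, ZMod.val_lt k, ((W.map (Int.castRingHom ℚ)).toAffine.baseChange_nonsingular
      σ.toAlgHom.injective x y).mpr h, ?_⟩
    rw [← ZMod.natCast_zmod_val k, Nat.cast_smul_eq_nsmul] at hk
    exact (congrArg (fun Q : N => ((Q : Submodule.torsionBy ℤ (EK W).Point (n : ℤ)) :
      (EK W).Point)) hk).symm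

lemma X_eq_of {x y x' y' : Qb} {h : (EK W).Nonsingular x y} {h' : (EK W).Nonsingular x' y'}
    (e : Point.some x y h = Point.some x' y' h' ∨ Point.some x y h = -Point.some x' y' h') :
    x = x' :=
  Point.X_eq_iff.mpr e

/-- No semistable model has `k c₄³ = 5 ^ m l Δ` with `m` `1` or `2` and `k`, `l` prime to `5`. -/
lemma false_of_c₄_cube_eq (hW : W.IsSemistableModel) {k l : ℤ} {m : ℕ}
    (hk : ¬ (5 : ℤ) ∣ k) (hl : ¬ (5 : ℤ) ∣ l) (hm : 0 < m) (hm3 : m < 3)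
    (h : k * W.c₄ ^ 3 = 5 ^ m * l * W.Δ) : False := by
  have h5 : Prime (5 : ℤ) := by norm_num
  have hd : (5 : ℤ) ∣ k * W.c₄ ^ 3 := by
    rw [h, mul_assoc]; exact Dvd.dvd.mul_right (dvd_pow_self 5 hm.ne') _
  obtain ⟨c, hc⟩ := h5.dvd_of_dvd_pow ((h5.dvd_or_dvd hd).resolve_left hk)
  have hnΔ : ¬ (5 : ℤ) ∣ W.Δ := fun h5Δ => hW 5 (by norm_num) (by exact_mod_cast h5Δ)
    (by rw [hc]; exact ⟨c, by push_cast; ring⟩)
  rw [hc] at h
  obtain rfl | rfl : m = 1 ∨ m = 2 := by omega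
  · have : (5 : ℤ) ∣ l * W.Δ := ⟨k * (5 * c ^ 3),
      mul_left_cancel₀ (show (5 : ℤ) ≠ 0 by norm_num) (by linear_combination -h)⟩
    exact (h5.dvd_or_dvd this).elim hl hnΔ
  · have : (5 : ℤ) ∣ l * W.Δ := ⟨k * c ^ 3,
      mul_left_cancel₀ (show (25 : ℤ) ≠ 0 by norm_num) (by linear_combination -h)⟩
    exact (h5.dvd_or_dvd this).elim hl hnΔ

/-- If Galois preserves the line of a point `P` of order five, it fixes or swaps the abscissae of
`P` and `2 P`. -/
lemma fixed_or_swapped {x y x' y' : Qb} (hn : (EK W).Nonsingular x y)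
    (hn' : (EK W).Nonsingular x' y') (hP : 5 • Point.some x y hn = 0)
    (h2 : 2 • Point.some x y hn = Point.some x' y' hn') {σ : Qb ≃ₐ[ℚ] Qb}
    (hσ : ∃ k : ℕ, k < 5 ∧ ∃ h' : (EK W).Nonsingular (σ x) (σ y),
      Point.some (σ x) (σ y) h' = k • Point.some x y hn) :
    (σ x = x ∧ σ x' = x') ∨ (σ x = x' ∧ σ x' = x) := by
  obtain ⟨k, hk, h', hkP⟩ := hσ
  have h2' : ∃ hs : (EK W).Nonsingular (σ x') (σ y'),
      Point.some (σ x') (σ y') hs = (2 * k) • Point.some x y hn := by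
    refine ⟨((W.map (Int.castRingHom ℚ)).toAffine.baseChange_nonsingular
      σ.toAlgHom.injective x' y').mpr hn', ?_⟩
    rw [mul_comm, mul_nsmul, ← hkP]
    exact (congrArg (Point.map σ.toAlgHom) h2).symm.trans
      (map_nsmul (Point.map σ.toAlgHom) 2 _)
  obtain ⟨hs', h2k⟩ := h2'
  have e5 : ∀ {i j : ℕ}, i + j = 5 → i • Point.some x y hn = -(j • Point.some x y hn) :=
    fun {i j} hij => by rw [eq_neg_iff_add_eq_zero, ← add_nsmul, hij, hP]
  interval_cases k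
  · rw [zero_nsmul] at hkP; exact absurd hkP (Point.some_ne_zero h')
  · refine Or.inl ⟨X_eq_of W (Or.inl (hkP.trans (one_nsmul _))), ?_⟩
    exact X_eq_of W (Or.inl (h2k.trans h2))
  · refine Or.inr ⟨X_eq_of W (Or.inl (hkP.trans h2)), ?_⟩
    refine X_eq_of W (h' := hn) (Or.inr (h2k.trans ?_))
    rw [e5 (show 2 * 2 + 1 = 5 by norm_num), one_nsmul]
  · refine Or.inr ⟨X_eq_of W (h' := hn') (Or.inr (hkP.trans ?_)), ?_⟩
    · rw [e5 (show 3 + 2 = 5 by norm_num), h2]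
    · refine X_eq_of W (h' := hn) (Or.inl (h2k.trans ?_))
      rw [show 2 * 3 = 5 + 1 by norm_num, add_nsmul, hP, zero_add, one_nsmul]
  · refine Or.inl ⟨X_eq_of W (h' := hn) (Or.inr (hkP.trans ?_)), ?_⟩
    · rw [e5 (show 4 + 1 = 5 by norm_num), one_nsmul]
    · refine X_eq_of W (h' := hn') (Or.inr (h2k.trans ?_))
      rw [show 2 * 4 = 5 + 3 by norm_num, add_nsmul, hP, zero_add,
        e5 (show 3 + 2 = 5 by norm_num), h2]

/-- The rational points of `X₀(15)` give five values of the Tate parameter. -/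
lemma tateParameter_values {eq hq s : ℚ} (hrelq : (3 - 2 * eq - 3 * hq) ^ 2 = 4 * hq * (eq ^ 2 + 4))
    (hsdef : s = (eq * (hq + 1) - (3 - 2 * eq - 3 * hq)) / (hq - 1) - 11) :
    s = 0 ∨ s = -40 ∨ s = -10 ∨ s = -25 / 2 ∨ s = -25 / 8 := by
  rcases quartic_points (X015_point hrelq) with h0 | h0 | h0
  · obtain rfl : eq = 3 / 2 := by linarith
    rcases mul_eq_zero.mp (show hq * (9 * hq - 25) = 0 by linear_combination hrelq) with h1 | h1
    · subst h1; norm_num [hsdef]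
    · obtain rfl : hq = 25 / 9 := by linarith
      norm_num [hsdef]
  · obtain rfl : eq = 4 := by linarith
    rcases mul_eq_zero.mp (show (hq - 5) * (9 * hq - 5) = 0 by linear_combination hrelq)
      with h1 | h1
    · obtain rfl : hq = 5 := by linarith
      norm_num [hsdef]
    · obtain rfl : hq = 5 / 9 := by linarith
      norm_num [hsdef]
  · obtain rfl : eq = -1 := by linarith
    rcases mul_eq_zero.mp (show (hq - 5) * (9 * hq - 5) = 0 by linear_combination hrelq)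
      with h1 | h1
    · obtain rfl : hq = 5 := by linarith
      norm_num [hsdef]
    · obtain rfl : hq = 5 / 9 := by linarith
      norm_num [hsdef]

/-- None of these values of the Tate parameter occurs for a semistable curve. -/
lemma false_of_tateParameter (hΔ : W.Δ ≠ 0) (hW : W.IsSemistableModel) {s : ℚ}
    (hsval : s = 0 ∨ s = -40 ∨ s = -10 ∨ s = -25 / 2 ∨ s = -25 / 8)
    (hjq : (W.c₄ : ℚ) ^ 3 * s = (W.Δ : ℚ) * (s ^ 2 + 10 * s + 5) ^ 3) : False := by
  rcases hsval with rfl | rfl | rfl | rfl | rfl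
  · norm_num at hjq
    exact hΔ (by exact_mod_cast hjq)
  · refine false_of_c₄_cube_eq W hW (k := -8) (l := 241 ^ 3) (m := 2)
      (by norm_num) (by norm_num) (by norm_num) (by norm_num) ?_
    qify
    linear_combination (1 / 5) * hjq
  · refine false_of_c₄_cube_eq W hW (k := -2) (l := 1) (m := 2)
      (by norm_num) (by norm_num) (by norm_num) (by norm_num) ?_
    qify
    linear_combination (1 / 5) * hjq
  · refine false_of_c₄_cube_eq W hW (k := -32) (l := 29 ^ 3) (m := 1)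
      (by norm_num) (by norm_num) (by norm_num) (by norm_num) ?_
    qify
    linear_combination (64 / 25) * hjq
  · refine false_of_c₄_cube_eq W hW (k := -32768) (l := -(211 ^ 3)) (m := 1)
      (by norm_num) (by norm_num) (by norm_num) (by norm_num) ?_
    qify
    linear_combination (262144 / 25) * hjq

/-- A semistable curve has irreducible `E[3]` or irreducible `E[5]`. -/
theorem irreducible_three_or_five (hΔ : W.Δ ≠ 0) (hW : W.IsSemistableModel) :
    W.ModRepIsIrreducible 3 ∨ W.ModRepIsIrreducible 5 := by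
  by_contra hne
  rw [not_or] at hne
  have : Fact (Nat.Prime 3) := ⟨Nat.prime_three⟩
  have : Fact (Nat.Prime 5) := ⟨by norm_num⟩
  have hd3 : (EK W).Ψ₃.natDegree = 4 := natDegree_Ψ₃ _ (by norm_num)
  have hd5 : ((EK W).preΨ' 5).natDegree = 12 := by
    rw [natDegree_preΨ' _ (show ((5 : ℕ) : Qb) ≠ 0 by norm_num)]
    decide
  obtain ⟨x₃, y₃, h₃, hP₃, hσ₃⟩ := exists_stable_point W (n := 3) (f := (EK W).Ψ₃)
    (by rw [hd3]; norm_num) hd3.le (by norm_num) (EK_Δ_ne W hΔ)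
    (fun x y h => three_nsmul_eq_zero_iff h) hne.1
  obtain ⟨x, y, hn, hP, hσ⟩ := exists_stable_point W (n := 5) (f := (EK W).preΨ' 5)
    (by rw [hd5]; norm_num) hd5.le (by norm_num) (EK_Δ_ne W hΔ)
    (fun x y h => five_nsmul_eq_zero_iff h) hne.2
  have hψ := (three_nsmul_eq_zero_iff h₃).mp hP₃
  obtain ⟨y', hn', h2, hA2, hb, hswap⟩ := five_relations hn hP
  have hG := level15_relation hn hP hψ
  have hj := level5_j hn hP
  dsimp only at hG hj
  set x' := x - sa₂ (EK W) x y with hx'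
  set b := bPar (EK W) x x' with hbdef
  set z := zPar x₃ x x' with hzdef
  set e := ePar (EK W) x₃ x x' with hedef
  set h := hPar x₃ x x' with hhdef
  have hxx : x' - x ≠ 0 := by
    rw [hx', sub_sub_cancel_left]; exact neg_ne_zero.mpr hA2
  obtain ⟨hz, hz1, hh1, hrel, hs⟩ := X015_relations hb hG
    (show e = b * z / (z - 1) - (b * z / (z - 1))⁻¹ from rfl) (show h = (2 * z - 1) ^ 2 from rfl)
  -- Galois invariance
  have h3fix : ∀ σ : Qb ≃ₐ[ℚ] Qb, σ x₃ = x₃ := by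
    intro σ
    obtain ⟨k, hk, h', hkP⟩ := hσ₃ σ
    interval_cases k
    · rw [zero_nsmul] at hkP; exact absurd hkP (Point.some_ne_zero h')
    · exact X_eq_of W (Or.inl (hkP.trans (one_nsmul _)))
    · refine X_eq_of W (h' := h₃) (Or.inr (hkP.trans ?_))
      rw [eq_neg_iff_add_eq_zero, ← succ_nsmul]
      exact hP₃
  have h5fix := fun σ => fixed_or_swapped W hn hn' hP h2 (hσ σ)
  have hzswap : zPar x₃ x' x = 1 - z := by
    have hxx' : x - x' ≠ 0 := fun h0 => hxx (by linear_combination -h0)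
    rw [hzdef, zPar, zPar]
    field_simp
    ring
  have heswap : ePar (EK W) x₃ x' x = e := by
    rw [hedef, ePar, ePar, cPar, cPar, hzswap, hswap, ← hbdef, ← hzdef]
    have hz1' : z - 1 ≠ 0 := sub_ne_zero.mpr hz1
    rw [show 1 - z - 1 = -z by ring]
    field_simp
    ring
  have hhswap : hPar x₃ x' x = h := by
    rw [hhdef, hPar, hPar, hzswap, ← hzdef]
    ring
  obtain ⟨eq, heq⟩ := Gal.exists_rat_of_fixed (x := e) fun σ => by
    rw [hedef, aut_ePar, h3fix σ]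
    rcases h5fix σ with ⟨e1, e2⟩ | ⟨e1, e2⟩ <;> rw [e1, e2]
    exact heswap
  obtain ⟨hq, hhq⟩ := Gal.exists_rat_of_fixed (x := h) fun σ => by
    rw [hhdef, aut_hPar, h3fix σ]
    rcases h5fix σ with ⟨e1, e2⟩ | ⟨e1, e2⟩ <;> rw [e1, e2]
    exact hhswap
  rw [heq, hhq] at hrel hs
  rw [hhq] at hh1
  rw [EK_c₄, EK_Δ] at hj
  have hrelq : (3 - 2 * eq - 3 * hq) ^ 2 = 4 * hq * (eq ^ 2 + 4) := by exact_mod_cast hrel
  have hh1q : hq ≠ 1 := by exact_mod_cast hh1
  -- the Tate parameter as a rational number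
  obtain ⟨s, hsdef⟩ : ∃ s : ℚ, s = (eq * (hq + 1) - (3 - 2 * eq - 3 * hq)) / (hq - 1) - 11 :=
    ⟨_, rfl⟩
  have hbs : b - b⁻¹ - 11 = (s : Qb) := by
    have : (hq : Qb) - 1 ≠ 0 := sub_ne_zero.mpr hh1
    rw [hsdef]; push_cast
    rw [← hs]; field_simp
  rw [hbs] at hj
  have hjq : (W.c₄ : ℚ) ^ 3 * s = (W.Δ : ℚ) * (s ^ 2 + 10 * s + 5) ^ 3 := by
    have hj' : ((W.c₄ : ℚ) : Qb) ^ 3 * (s : Qb) =
        ((W.Δ : ℚ) : Qb) * ((s : Qb) ^ 2 + 10 * (s : Qb) + 5) ^ 3 := by exact_mod_cast hj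
    exact_mod_cast hj'
  have hsval := tateParameter_values hrelq hsdef
  exact false_of_tateParameter W hΔ hW hsval hjq

end Fermat.Agent.LevelFifteen
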