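import Mathlib.AlgebraicGeometry.EllipticCurve.Affine.Point
import Mathlib.AlgebraicGeometry.EllipticCurve.DivisionPolynomial.Degree
import Mathlib.FieldTheory.IsAlgClosed.Basic
import Mathlib.Tactic

/-!
# Points of order `3` and `5` on a Weierstrass curve via division polynomials

Everything is expressed through the coefficients `sa₁`, `sa₂`, `sa₃` of the curve moved so that a
given point is `(0, 0)` with horizontal tangent.
-/

universe u

open Polynomial WeierstrassCurve WeierstrassCurve.Affine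

namespace Fermat.Agent.LevelFifteen

variable {K : Type u} [Field K] [DecidableEq K] (E : WeierstrassCurve.Affine K)

/-- The slope of the tangent. -/
def tslope (x y : K) : K := E.slope x x y y

/-- Shifted `a₁`. -/
def sa₁ (x y : K) : K := E.a₁ + 2 * tslope E x y

/-- Shifted `a₂`. -/
def sa₂ (x y : K) : K := E.a₂ + 3 * x - tslope E x y * E.a₁ - tslope E x y ^ 2

/-- Shifted `a₃`. -/
def sa₃ (x y : K) : K := 2 * y + E.a₁ * x + E.a₃

variable {E} {x y : K}

omit [DecidableEq K] in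
lemma Y_ne_negY_iff : y ≠ E.negY x y ↔ sa₃ E x y ≠ 0 := by
  rw [← sub_ne_zero, negY, sa₃]
  ring_nf

omit [DecidableEq K] in
lemma eq_a₆ (h : E.Equation x y) :
    E.a₆ = y ^ 2 + E.a₁ * x * y + E.a₃ * y - x ^ 3 - E.a₂ * x ^ 2 - E.a₄ * x := by
  rw [equation_iff] at h
  linear_combination -h

lemma eq_a₄ (h3 : sa₃ E x y ≠ 0) :
    E.a₄ = tslope E x y * (2 * y + E.a₁ * x + E.a₃) - 3 * x ^ 2 - 2 * E.a₂ * x + E.a₁ * y := by
  have hy : y ≠ E.negY x y := Y_ne_negY_iff.mpr h3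
  have h3' : 2 * y + E.a₁ * x + E.a₃ ≠ 0 := h3
  rw [tslope, slope_of_Y_ne rfl hy, show y - E.negY x y = 2 * y + E.a₁ * x + E.a₃ by
    rw [negY]; ring, div_mul_cancel₀ _ h3']
  ring

section formulas

variable (h : E.Equation x y) (h3 : sa₃ E x y ≠ 0)

include h h3

lemma eval_Ψ₃ : E.Ψ₃.eval x = sa₂ E x y * sa₃ E x y ^ 2 := by
  simp only [Ψ₃, b₂, b₄, b₆, b₈, eval_add, eval_mul, eval_pow, eval_X, eval_C, eval_ofNat]
  rw [eq_a₆ h, eq_a₄ h3]
  simp only [sa₂, sa₃]
  ring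

/-- The 3-division polynomial around the point. -/
lemma eval_Ψ₃_add (X' : K) : E.Ψ₃.eval (x + X') =
    3 * X' ^ 4 + (sa₁ E x y ^ 2 + 4 * sa₂ E x y) * X' ^ 3
      + 3 * (sa₁ E x y * sa₃ E x y) * X' ^ 2 + 3 * sa₃ E x y ^ 2 * X'
      + sa₂ E x y * sa₃ E x y ^ 2 := by
  simp only [Ψ₃, b₂, b₄, b₆, b₈, eval_add, eval_mul, eval_pow, eval_X, eval_C, eval_ofNat]
  rw [eq_a₆ h, eq_a₄ h3]
  simp only [sa₁, sa₂, sa₃]
  ring

omit h3 [DecidableEq K] in
lemma eval_Ψ₂Sq : E.Ψ₂Sq.eval x = sa₃ E x y ^ 2 := by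
  simp only [Ψ₂Sq, b₂, b₄, b₆, eval_add, eval_mul, eval_pow, eval_X, eval_C]
  rw [eq_a₆ h]
  simp only [sa₃]
  ring

lemma eval_Ψ₂Sq_double : E.Ψ₂Sq.eval (x - sa₂ E x y) =
    (sa₁ E x y * sa₂ E x y - sa₃ E x y) ^ 2 := by
  simp only [Ψ₂Sq, b₂, b₄, b₆, eval_add, eval_mul, eval_pow, eval_X, eval_C]
  rw [eq_a₆ h, eq_a₄ h3]
  simp only [sa₁, sa₂, sa₃]
  ring

lemma eval_preΨ₄ : E.preΨ₄.eval x =
    sa₃ E x y ^ 3 * (sa₁ E x y * sa₂ E x y - sa₃ E x y) := by
  simp only [preΨ₄, b₂, b₄, b₆, b₈, eval_add, eval_mul, eval_pow, eval_X, eval_C, eval_ofNat]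
  rw [eq_a₆ h, eq_a₄ h3]
  simp only [sa₁, sa₂, sa₃]
  ring

omit h in
/-- `c₄` in the moved coefficients. -/
lemma c₄_eq : E.c₄ = (sa₁ E x y ^ 2 + 4 * sa₂ E x y) ^ 2 - 24 * (sa₁ E x y * sa₃ E x y) := by
  simp only [WeierstrassCurve.c₄, b₂, b₄]
  rw [eq_a₄ h3]
  simp only [sa₁, sa₂, sa₃]
  ring

/-- The discriminant in the moved coefficients. -/
lemma Δ_eq : E.Δ = -(sa₁ E x y ^ 2 + 4 * sa₂ E x y) ^ 2 * (sa₂ E x y * sa₃ E x y ^ 2)
    - 8 * (sa₁ E x y * sa₃ E x y) ^ 3 - 27 * (sa₃ E x y ^ 2) ^ 2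
    + 9 * (sa₁ E x y ^ 2 + 4 * sa₂ E x y) * (sa₁ E x y * sa₃ E x y) * sa₃ E x y ^ 2 := by
  simp only [WeierstrassCurve.Δ, b₂, b₄, b₆, b₈]
  rw [eq_a₆ h, eq_a₄ h3]
  simp only [sa₁, sa₂, sa₃]
  ring

omit h in
/-- The double of a point, with abscissa `x - sa₂`. -/
lemma two_nsmul_some (hn : E.Nonsingular x y) : ∃ (y' : K)
    (hn' : E.Nonsingular (x - sa₂ E x y) y'),
    (2 : ℕ) • (Point.some x y hn) = Point.some _ _ hn' ∧
      sa₃ E (x - sa₂ E x y) y' = sa₁ E x y * sa₂ E x y - sa₃ E x y ∧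
      y' = tslope E x y * sa₂ E x y + E.a₁ * sa₂ E x y - y - E.a₁ * x - E.a₃ := by
  have hy : y ≠ E.negY x y := Y_ne_negY_iff.mpr h3
  have hx : E.addX x x (E.slope x x y y) = x - sa₂ E x y := by
    simp only [addX, sa₂, tslope]; ring
  have hh : E.Nonsingular (x - sa₂ E x y) (E.addY x x y (E.slope x x y y)) :=
    hx ▸ nonsingular_add hn hn fun hxy => hy hxy.2
  refine ⟨_, hh, ?_, ?_, ?_⟩
  · rw [two_nsmul, Point.add_self_of_Y_ne hy]
    simp only [Point.some.injEq]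
    exact ⟨hx, trivial⟩
  · simp only [sa₁, sa₂, sa₃, tslope, addY, negAddY, addX, negY]
    ring
  · simp only [sa₂, tslope, addY, negAddY, addX, negY]
    ring

end formulas

omit [DecidableEq K] in
lemma sa₃_ne_zero_of_Ψ₃ (hn : E.Nonsingular x y) (h : E.Ψ₃.eval x = 0) : sa₃ E x y ≠ 0 := by
  intro h0
  obtain ⟨he, hns⟩ := (nonsingular_iff' x y).mp hn
  have ha3 : E.a₃ = -2 * y - E.a₁ * x := by simp only [sa₃] at h0; linear_combination h0
  have e : E.Ψ₃.eval x = -(E.a₁ * y - (3 * x ^ 2 + 2 * E.a₂ * x + E.a₄)) ^ 2 := by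
    simp only [Ψ₃, b₂, b₄, b₆, b₈, eval_add, eval_mul, eval_pow, eval_X, eval_C, eval_ofNat]
    rw [eq_a₆ hn.1, ha3]
    ring
  rw [h, eq_comm, neg_eq_zero] at e
  rcases hns with hns | hns
  · exact hns (pow_eq_zero_iff two_ne_zero |>.mp e)
  · exact hns (by simpa [sa₃] using h0)

omit [DecidableEq K] in
lemma preΨ'_five : E.preΨ' 5 = E.preΨ₄ * E.Ψ₂Sq ^ 2 - E.Ψ₃ ^ 3 := by
  have := E.preΨ'_odd 0
  simpa using this

omit [DecidableEq K] in
lemma sa₃_ne_zero_of_preΨ'_five (hn : E.Nonsingular x y) (h : (E.preΨ' 5).eval x = 0) :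
    sa₃ E x y ≠ 0 := by
  intro h0
  rw [preΨ'_five, eval_sub, eval_mul, eval_pow, eval_pow, eval_Ψ₂Sq hn.1, h0] at h
  exact sa₃_ne_zero_of_Ψ₃ hn (by simpa using h) h0

omit [DecidableEq K] in
lemma nsmul_eq_some_or {x' y' : K} (hn : E.Nonsingular x y) (hn' : E.Nonsingular x' y')
    (h : x = x') :
    Point.some x y hn = Point.some x' y' hn' ∨ Point.some x y hn = -Point.some x' y' hn' :=
  Point.X_eq_iff.mp h

lemma sa₃_ne_zero_of_nsmul {n : ℕ} (hn2 : Odd n) (hn : E.Nonsingular x y)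
    (h : n • Point.some x y hn = 0) : sa₃ E x y ≠ 0 := by
  intro h0
  have hy : y = E.negY x y := by
    by_contra hy; exact Y_ne_negY_iff.mp hy h0
  obtain ⟨k, rfl⟩ := hn2
  rw [add_nsmul, mul_nsmul, two_nsmul, Point.add_self_of_Y_eq hy, nsmul_zero, zero_add,
    one_nsmul] at h
  exact Point.some_ne_zero hn h

/-- Points of order three. -/
lemma three_nsmul_eq_zero_iff (hn : E.Nonsingular x y) :
    (3 : ℕ) • Point.some x y hn = 0 ↔ E.Ψ₃.eval x = 0 := by
  constructor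
  · intro h
    have h3 := sa₃_ne_zero_of_nsmul (by decide) hn h
    obtain ⟨y', hn', h2, -, -⟩ := two_nsmul_some h3 hn
    rw [succ_nsmul, h2, add_eq_zero_iff_eq_neg, Point.neg_some, Point.some.injEq] at h
    rw [eval_Ψ₃ hn.1 h3, show sa₂ E x y = 0 by linear_combination -h.1, zero_mul]
  · intro h
    have h3 := sa₃_ne_zero_of_Ψ₃ hn h
    obtain ⟨y', hn', h2, -, -⟩ := two_nsmul_some h3 hn
    rw [eval_Ψ₃ hn.1 h3, mul_eq_zero, or_iff_left (pow_ne_zero 2 h3)] at h
    rcases nsmul_eq_some_or hn' hn (by rw [h, sub_zero]) with hP | hP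
    · rw [← h2, two_nsmul, add_eq_left] at hP
      exact absurd hP (Point.some_ne_zero hn)
    · rw [succ_nsmul, h2, hP, neg_add_cancel]

/-- The relation satisfied by a point of order five. -/
def FiveRel (E : WeierstrassCurve.Affine K) (x y : K) : Prop :=
  sa₂ E x y ^ 3 - sa₁ E x y * sa₂ E x y * sa₃ E x y + sa₃ E x y ^ 2 = 0

lemma eval_preΨ'_five (h : E.Equation x y) (h3 : sa₃ E x y ≠ 0) :
    (E.preΨ' 5).eval x = -sa₃ E x y ^ 6 *
      (sa₂ E x y ^ 3 - sa₁ E x y * sa₂ E x y * sa₃ E x y + sa₃ E x y ^ 2) := by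
  rw [preΨ'_five, eval_sub, eval_mul, eval_pow, eval_pow, eval_Ψ₂Sq h, eval_preΨ₄ h h3,
    eval_Ψ₃ h h3]
  ring

/-- Nondegeneracy of the double of a point of order five. -/
lemma double_ne_zero (h3 : sa₃ E x y ≠ 0) (hR : FiveRel E x y) :
    sa₂ E x y ≠ 0 ∧ sa₁ E x y * sa₂ E x y - sa₃ E x y ≠ 0 := by
  unfold FiveRel at hR
  constructor
  · intro h0
    rw [h0] at hR
    exact h3 (pow_eq_zero_iff two_ne_zero |>.mp (by linear_combination hR))
  · intro h0
    have h2 : sa₂ E x y ^ 3 = 0 := by linear_combination hR + sa₃ E x y * h0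
    rw [pow_eq_zero_iff three_ne_zero] at h2
    rw [h2] at h0
    exact h3 (by linear_combination -h0)

/-- The abscissa of `4P` minus that of `P`. -/
lemma quadruple_X (h3 : sa₃ E x y ≠ 0) {y' : K}
    (hy' : y' = tslope E x y * sa₂ E x y + E.a₁ * sa₂ E x y - y - E.a₁ * x - E.a₃)
    (hd : sa₁ E x y * sa₂ E x y - sa₃ E x y ≠ 0) :
    (x - sa₂ E x y - sa₂ E (x - sa₂ E x y) y' - x) *
        (sa₁ E x y * sa₂ E x y - sa₃ E x y) ^ 2 =
      sa₂ E x y * (sa₂ E x y ^ 3 - sa₁ E x y * sa₂ E x y * sa₃ E x y + sa₃ E x y ^ 2) := by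
  have hd' : sa₃ E (x - sa₂ E x y) y' = sa₁ E x y * sa₂ E x y - sa₃ E x y := by
    subst hy'
    simp only [sa₁, sa₂, sa₃]
    ring
  have hA4 := (eq_a₄ (hd' ▸ hd)).symm.trans (eq_a₄ h3)
  -- the shifted slope at the double
  have hM : (tslope E (x - sa₂ E x y) y' + tslope E x y + E.a₁) *
      (sa₁ E x y * sa₂ E x y - sa₃ E x y) = sa₂ E x y ^ 2 := by
    subst hy'
    simp only [sa₁, sa₂, sa₃] at hA4 ⊢
    linear_combination hA4
  have hid : x - sa₂ E x y - sa₂ E (x - sa₂ E x y) y' - x =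
      (tslope E (x - sa₂ E x y) y' + tslope E x y + E.a₁) *
        (tslope E (x - sa₂ E x y) y' + tslope E x y + E.a₁ - sa₁ E x y) + sa₂ E x y := by
    simp only [sa₁, sa₂]
    ring
  rw [hid]
  linear_combination ((tslope E (x - sa₂ E x y) y' + tslope E x y + E.a₁) *
      (sa₁ E x y * sa₂ E x y - sa₃ E x y) + sa₂ E x y ^ 2 -
      sa₁ E x y * (sa₁ E x y * sa₂ E x y - sa₃ E x y)) * hM

/-- A point killed by five satisfies `FiveRel`. -/
lemma five_of_nsmul (hn : E.Nonsingular x y) (h : (5 : ℕ) • Point.some x y hn = 0) :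
    sa₃ E x y ≠ 0 ∧ FiveRel E x y := by
  have h3 := sa₃_ne_zero_of_nsmul (by decide) hn h
  refine ⟨h3, ?_⟩
  obtain ⟨y', hn', h2, hy', hy''e⟩ := two_nsmul_some h3 hn
  have h2' : sa₂ E x y ≠ 0 := fun h0 => by
    have h30 : (3 : ℕ) • Point.some x y hn = 0 :=
      (three_nsmul_eq_zero_iff hn).mpr (by rw [eval_Ψ₃ hn.1 h3, h0, zero_mul])
    rw [show 5 = 3 + 2 by norm_num, add_nsmul, h30, zero_add, h2] at h
    exact Point.some_ne_zero hn' h
  have hd : sa₁ E x y * sa₂ E x y - sa₃ E x y ≠ 0 := by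
    intro h0
    have hy2 : y' = E.negY (x - sa₂ E x y) y' := by
      by_contra hy; exact Y_ne_negY_iff.mp hy (hy'.trans h0)
    rw [show 5 = 2 + 2 + 1 by norm_num, add_nsmul, add_nsmul, h2,
      Point.add_self_of_Y_eq hy2, zero_add, one_nsmul] at h
    exact Point.some_ne_zero hn h
  obtain ⟨y'', hn'', h4, -, -⟩ := two_nsmul_some (hy' ▸ hd) hn'
  rw [show 5 = 2 * 2 + 1 by norm_num, add_nsmul, mul_nsmul, h2, h4, one_nsmul,
    add_eq_zero_iff_eq_neg, Point.neg_some, Point.some.injEq] at h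
  have hq := quadruple_X h3 hy''e hd
  rw [h.1, sub_self, zero_mul, eq_comm, mul_eq_zero, or_iff_right h2'] at hq
  exact hq

/-- An affine point is killed by five iff it is a root of the 5-division polynomial. -/
lemma five_nsmul_eq_zero_iff (hn : E.Nonsingular x y) :
    (5 : ℕ) • Point.some x y hn = 0 ↔ (E.preΨ' 5).eval x = 0 := by
  constructor
  · intro h
    obtain ⟨h3, hR⟩ := five_of_nsmul hn h
    rw [eval_preΨ'_five hn.1 h3, show _ = (0 : K) from hR, mul_zero]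
  · intro h
    have h3 := sa₃_ne_zero_of_preΨ'_five hn h
    rw [eval_preΨ'_five hn.1 h3, mul_eq_zero,
      or_iff_right (neg_ne_zero.mpr (pow_ne_zero 6 h3))] at h
    obtain ⟨h2', hd⟩ := double_ne_zero h3 h
    obtain ⟨y', hn', h2, hy', hy''e⟩ := two_nsmul_some h3 hn
    obtain ⟨y'', hn'', h4, -, -⟩ := two_nsmul_some (hy' ▸ hd) hn'
    have hq := quadruple_X h3 hy''e hd
    rw [h, mul_zero, mul_eq_zero, or_iff_left (pow_ne_zero 2 hd), sub_eq_zero] at hq
    have h40 : (4 : ℕ) • Point.some x y hn = Point.some _ _ hn'' := by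
      rw [show 4 = 2 * 2 by norm_num, mul_nsmul, h2, h4]
    rcases nsmul_eq_some_or hn'' hn hq with hP | hP
    · rw [← h40, succ_nsmul, add_eq_right] at hP
      exfalso
      have h30 := (three_nsmul_eq_zero_iff hn).mp hP
      rw [eval_Ψ₃ hn.1 h3, mul_eq_zero] at h30
      exact h30.elim h2' (pow_ne_zero 2 h3)
    · rw [succ_nsmul, h40, hP, neg_add_cancel]

/-- The quadratic in `Y` above a given abscissa. -/
noncomputable def quadY (E : WeierstrassCurve.Affine K) (x : K) : K[X] :=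
  C 1 * X ^ 2 + C (E.a₁ * x + E.a₃) * X + C (-(x ^ 3 + E.a₂ * x ^ 2 + E.a₄ * x + E.a₆))

omit [DecidableEq K] in
lemma quadY_spec {x y : K} : (quadY E x).IsRoot y ↔ E.Equation x y := by
  simp only [quadY, IsRoot.def, eval_add, eval_mul, eval_pow, eval_X, eval_C, equation_iff]
  constructor <;> intro h <;> linear_combination h

omit [DecidableEq K] in
lemma quadY_natDegree (x : K) : (quadY E x).natDegree = 2 := natDegree_quadratic one_ne_zero

variable (E)

omit [DecidableEq K] in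
/-- Existence of a nonzero point above a root of a division polynomial. -/
lemma exists_point [IsAlgClosed K] (hΔ : E.Δ ≠ 0) {f : K[X]} (hf : f.natDegree ≠ 0) :
    ∃ (x y : K) (_ : E.Nonsingular x y), f.eval x = 0 := by
  obtain ⟨x, hx⟩ := IsAlgClosed.exists_root f fun h =>
    hf (natDegree_eq_zero_iff_degree_le_zero.mpr h.le)
  obtain ⟨y, hy⟩ := IsAlgClosed.exists_root (quadY E x) fun h => by
    have := natDegree_eq_zero_iff_degree_le_zero.mpr h.le
    rw [quadY_natDegree] at this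
    exact two_ne_zero this
  exact ⟨x, y, (equation_iff_nonsingular_of_Δ_ne_zero hΔ).mp (quadY_spec.mp hy), hx⟩

/-- A set of points whose abscissae are roots of `f` has at most `2 deg f + 1` elements. -/
lemma finite_and_card_le (S : Set E.Point) {f : K[X]} (hf : f ≠ 0)
    (hS : ∀ (x y : K) (h : E.Nonsingular x y), Point.some x y h ∈ S → f.eval x = 0) :
    Finite S ∧ Nat.card S ≤ 2 * f.natDegree + 1 := by
  classical
  let T : Finset (Option (K × K)) := Finset.insertNone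
    (f.roots.toFinset.biUnion fun x => (quadY E x).roots.toFinset.image fun y => (x, y))
  let g : E.Point → Option (K × K)
    | .zero => none
    | .some x y _ => some (x, y)
  have hg : ∀ P ∈ S, g P ∈ T := by
    intro P hP
    match P, hP with
    | .zero, _ => exact Finset.none_mem_insertNone
    | .some x y h, hP =>
      refine Finset.some_mem_insertNone.mpr (Finset.mem_biUnion.mpr ⟨x, ?_, ?_⟩)
      · rw [Multiset.mem_toFinset, mem_roots hf]; exact hS x y h hP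
      · refine Finset.mem_image.mpr ⟨y, ?_, rfl⟩
        rw [Multiset.mem_toFinset, mem_roots, quadY_spec]
        · exact h.1
        · exact ne_zero_of_natDegree_gt (n := 1) (by rw [quadY_natDegree]; norm_num)
  have hinj : Function.Injective fun P : S => (⟨g P, hg P P.2⟩ : T) := by
    rintro ⟨P, _⟩ ⟨Q, _⟩ h
    have h' : g P = g Q := congrArg Subtype.val h
    refine Subtype.ext ?_
    change P = Q
    cases P <;> cases Q <;> simp [g] at h' <;> first | rfl | simp [h']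
  refine ⟨Finite.of_injective _ hinj, (Nat.card_le_card_of_injective _ hinj).trans ?_⟩
  rw [Nat.card_eq_finsetCard, Finset.card_insertNone]
  refine Nat.succ_le_succ ((Finset.card_biUnion_le_card_mul _ _ 2 fun x _ => ?_).trans ?_)
  · refine Finset.card_image_le.trans ((Multiset.toFinset_card_le _).trans ?_)
    exact (card_roots' _).trans (quadY_natDegree x).le
  · rw [mul_comm]
    exact Nat.mul_le_mul_left 2 ((Multiset.toFinset_card_le _).trans (card_roots' f))

end Fermat.Agent.LevelFifteen
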